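/-
Row S34 / cell A2 (helper789): the middle glue

    (adic eigenmodules on which inertia at `q ∥ N` acts unipotently)  ⟹  `S30UStatement`, `A2Input`
    ⟹ (with CHEB Tier 1 and PTS)  the frozen statement S34.

The top glues `Fermat.Agent.S34.H733.result_of_inputs` / `Fermat.Agent.S34.H193.unipotent_of_parts`
consume a Galois representation attached to a `p`-adic point of the Hecke algebra which is
unipotent on inertia at `q`.  The S30 top glue of helper990 builds that representation from an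
`AdicEigenModule`; here we record that the extraction keeps unipotency:
if `(ρ σ - 1)² = 0` on the eigenmodule and `σ` is in an inertia group at `q ≠ p`, then
`ρ σ` satisfies the quadratic relation with `a = 2`, `d σ = 1`, hence the extracted rank two
representation has characteristic polynomial `X² - 2 X + 1 = (X - 1)²` at `σ`.

So the only thing the cell A2 + the `p`-adic mid layer have to deliver for S34 is
`HasAdicEigenModulesU`: an eigenmodule (any nonzero finite free module with Eichler–Shimura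
relations, e.g. an eigenspace of `𝒪' ⊗ lim J₀(N)[pⁿ]`) on which `(σ - 1)² = 0` for `σ` in the
inertia groups at the primes `q ≠ p`, `q ∥ N`.
-/
import Fermat.Agent.S30.H990.Final
import Fermat.Agent.S34.H733.Glue
import Fermat.Agent.S34.H193.Glue

set_option autoImplicit false

namespace Fermat.Agent.S34.H789

open Polynomial Fermat.Agent.S30.H990 Fermat.Agent.S55.H414

/-- Inertia at `q` acts unipotently (`(σ - 1)² = 0`) on the adic eigenmodule `E`. -/
def EigenUnipAt {p N : ℕ} [NeZero N] {S : Finset ℕ} {𝒪 : Type} [CommRing 𝒪] [IsLocalRing 𝒪]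
    {χ : CuspForm.heckeAlgebra N 2 (↑S : Set ℕ) →+* 𝒪} (E : AdicEigenModule p N S 𝒪 χ)
    (q : ℕ) : Prop :=
  ∀ P : ValuationSubring (AlgebraicClosure ℚ), P.LiesOverPrime q →
    ∀ σ ∈ P.inertiaSubgroupIn ℚ, (E.ρ σ - 1) * (E.ρ σ - 1) = 0

/-- **Deliverable of cell A2 + the `p`-adic mid layer**: every eigencharacter has an adic
eigenmodule on which the inertia groups at the primes `q ≠ p` exactly dividing the level act
unipotently. -/
def HasAdicEigenModulesU : Prop :=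
  ∀ (p : ℕ) [Fact p.Prime] (N : ℕ) [NeZero N] (S : Finset ℕ)
    (_hpS : p ∈ S) (_hNS : ∀ q : ℕ, q.Prime → q ∣ N → q ∈ S)
    (𝒪' : Type) [CommRing 𝒪'] [IsDomain 𝒪'] [IsDiscreteValuationRing 𝒪']
    [IsAdicComplete (IsLocalRing.maximalIdeal 𝒪') 𝒪'] [Finite (IsLocalRing.ResidueField 𝒪')]
    [CharZero 𝒪'] (_hp𝒪' : (p : 𝒪') ∈ IsLocalRing.maximalIdeal 𝒪')
    (χ : CuspForm.heckeAlgebra N 2 (↑S : Set ℕ) →+* 𝒪'),
    ∃ E : AdicEigenModule p N S 𝒪' χ,
      ∀ q : ℕ, q.Prime → q ≠ p → q ∣ N → ¬ q ^ 2 ∣ N → EigenUnipAt E q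

theorem hasAdicEigenModules_of_U (h : HasAdicEigenModulesU) : HasAdicEigenModules := by
  intro p _ N _ S hpS hNS 𝒪' _ _ _ _ _ _ hp𝒪' χ
  obtain ⟨E, -⟩ := h p N S hpS hNS 𝒪' hp𝒪' χ
  exact ⟨E⟩

section Assembly

variable {p N : ℕ} [Fact p.Prime] [NeZero N] {S : Finset ℕ}
  {𝒪 : Type} [CommRing 𝒪] [IsDomain 𝒪] [IsDiscreteValuationRing 𝒪]
  [IsAdicComplete (IsLocalRing.maximalIdeal 𝒪) 𝒪] [Finite (IsLocalRing.ResidueField 𝒪)]
  {χ : CuspForm.heckeAlgebra N 2 (↑S : Set ℕ) →+* 𝒪}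

/-- `(X - 1)²` in the normal form of `TwoDimOut.charpoly_eq`. -/
theorem sq_X_sub_one_eq' {R : Type*} [CommRing R] :
    ((X : R[X]) - 1) ^ 2 = X ^ 2 - C (2 : R) * X + C (1 : R) := by
  simp only [map_ofNat, map_one]
  ring

/-- The extraction of helper990 (`exists_galoisRepAdic`) with the additional conclusion that the
representation is unipotent on inertia at every prime `q ≠ p` at which the eigenmodule is. -/
theorem exists_galoisRepAdic_unip [CharZero 𝒪] (hcheb : ChebWeak) (hpS : p ∈ S)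
    (hNS : ∀ q : ℕ, q.Prime → q ∣ N → q ∈ S)
    (hp𝒪 : (p : 𝒪) ∈ IsLocalRing.maximalIdeal 𝒪) (E : AdicEigenModule p N S 𝒪 χ) :
    ∃ ρ : GaloisRepAdic 𝒪,
      (∀ (ℓ : ℕ) (hℓ : ℓ.Prime) (hℓN : ¬ ℓ ∣ N) (hℓS : ℓ ∉ (↑S : Set ℕ)),
        ∀ A : ValuationSubring (AlgebraicClosure ℚ), A.LiesOverPrime ℓ →
          ∀ σ : AlgebraicClosure ℚ ≃ₐ[ℚ] AlgebraicClosure ℚ, A.IsFrobeniusAt σ ℓ →
            LinearMap.charpoly (ρ.ρ σ) =
              X ^ 2 - C (χ (CuspForm.heckeAlgebra.T hℓ hℓN hℓS)) * X + C ((ℓ : 𝒪))) ∧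
      (∀ q : ℕ, q.Prime → ¬ q ∣ N → q ≠ p → ρ.IsUnramifiedAt q) ∧
      (∀ q : ℕ, q.Prime → q ≠ p → EigenUnipAt E q → ρ.IsUnipotentOnInertiaAt q) := by
  obtain ⟨d, hdfrob, hdinert, hdc, hdcont⟩ := exists_cyclo p 𝒪 hp𝒪
  have hrel : ∀ g : GQ, ∃ a, Fermat.Agent.S30.H990.Rel E.ρ d g a := fun g =>
    exists_rel_of_mod E.ρ d g (fun n => exists_rel_mod hcheb hpS hNS E d hdfrob hdcont g n)
  have h2 : (2 : 𝒪) ≠ 0 := two_ne_zero
  obtain ⟨T⟩ := exists_twoDim E.ρ d h2 hrel complexConjugation complexConjugation_mul_self hdc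
  refine ⟨{ V := T.V
            finrank_eq := T.finrank_eq
            ρ := T.ρ₂
            isAdicContinuous := ?_ }, ?_, ?_, ?_⟩
  · intro n
    obtain ⟨L₁, hL₁fin, hL₁⟩ := E.cont n
    have : FiniteDimensional ℚ L₁ := hL₁fin
    refine ⟨L₁ ⊔ cycloLevel (p ^ n),
      IntermediateField.finiteDimensional_sup L₁ (cycloLevel (p ^ n)), fun σ hσ v => ?_⟩
    refine T.cong (IsLocalRing.maximalIdeal 𝒪 ^ n) σ ?_ ?_ v
    · exact hL₁ σ (fun x hx => hσ x ((le_sup_left : L₁ ≤ L₁ ⊔ cycloLevel (p ^ n)) hx))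
    · exact hdcont n σ (fun x hx =>
        hσ x ((le_sup_right : cycloLevel (p ^ n) ≤ L₁ ⊔ cycloLevel (p ^ n)) hx))
  · intro ℓ hℓ hℓN hℓS A hA σ hσ
    have hℓp : ℓ ≠ p := fun h => hℓS (Finset.mem_coe.mpr (h ▸ hpS))
    have hr : Fermat.Agent.S30.H990.Rel E.ρ d σ (χ (CuspForm.heckeAlgebra.T hℓ hℓN hℓS)) := by
      unfold Fermat.Agent.S30.H990.Rel
      rw [hdfrob ℓ hℓ hℓp A hA σ hσ]
      exact E.frob ℓ hℓ hℓN hℓS A hA σ hσ
    have := T.charpoly_eq σ _ hr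
    rw [hdfrob ℓ hℓ hℓp A hA σ hσ] at this
    exact this
  · intro q hq hqN hqp P hP σ hσ
    have h1 : E.ρ σ = 1 := E.unram q hq hqN hqp P hP σ hσ
    have h2 : d σ = 1 := hdinert q hq hqp P hP σ hσ
    have h3 := T.cong ⊥ σ (fun v => by rw [h1]; simp) (by rw [h2]; simp)
    ext v
    have h4 := h3 v
    rw [Submodule.bot_smul, Submodule.mem_bot, sub_eq_zero] at h4
    simpa using h4
  · intro q hq hqp hU P hP σ hσ
    have hd : d σ = 1 := hdinert q hq hqp P hP σ hσ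
    have hu : (E.ρ σ - 1) * (E.ρ σ - 1) = 0 := hU P hP σ hσ
    have hr : Fermat.Agent.S30.H990.Rel E.ρ d σ (2 : 𝒪) := by
      unfold Fermat.Agent.S30.H990.Rel
      rw [hd, Units.val_one, one_smul, ← hu]
      simp only [mul_sub, sub_mul, mul_one, one_mul, two_smul]
      abel
    have := T.charpoly_eq σ _ hr
    rw [hd, Units.val_one] at this
    show LinearMap.charpoly (T.ρ₂ σ) = (X - 1) ^ 2
    rw [this, sq_X_sub_one_eq']

end Assembly

/-- **`S30UStatement` from the unipotent adic eigenmodules** (with `𝒪'' := 𝒪'`). -/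
theorem s30U_of_hasAdicEigenModulesU (hmod : HasAdicEigenModulesU) :
    Fermat.Agent.S34.H733.S30UStatement := by
  intro p _ N _ S hpS hNS 𝒪' _ _ _ _ _ _ hp𝒪' χ
  obtain ⟨E, hE⟩ := hmod p N S hpS hNS 𝒪' hp𝒪' χ
  obtain ⟨ρ, hρ1, -, hρ3⟩ := exists_galoisRepAdic_unip
    (chebWeak_of_frobeniusDivision Fermat.Agent.Lib.Cheb.frobeniusDivision) hpS hNS hp𝒪' E
  exact ⟨𝒪', inferInstance, inferInstance, inferInstance, inferInstance, inferInstance,
    inferInstance, Algebra.id 𝒪', Module.Finite.self 𝒪', isLocalHom_id 𝒪',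
    Function.injective_id, ρ, hρ1, fun q hq hqp hqN hq2 => hρ3 q hq hqp (hE q hq hqp hqN hq2)⟩

/-- **`A2Input` (helper193) from the unipotent adic eigenmodules.** -/
theorem a2Input_of_hasAdicEigenModulesU (hmod : HasAdicEigenModulesU) :
    Fermat.Agent.S34.H193.A2Input := by
  intro p _ N _ S hpS hNS 𝒪' _ _ _ _ _ _ hp𝒪' χ q hq hqp hqN hq2
  obtain ⟨E, hE⟩ := hmod p N S hpS hNS 𝒪' hp𝒪' χ
  obtain ⟨ρ, hρ1, -, hρ3⟩ := exists_galoisRepAdic_unip
    (chebWeak_of_frobeniusDivision Fermat.Agent.Lib.Cheb.frobeniusDivision) hpS hNS hp𝒪' E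
  exact ⟨𝒪', inferInstance, inferInstance, inferInstance, RingHom.id 𝒪', Function.injective_id,
    ρ, fun ℓ hℓ hℓN hℓS B hB σ hσ => hρ1 ℓ hℓ hℓN hℓS B hB σ hσ,
    hρ3 q hq hqp (hE q hq hqp hqN hq2)⟩

end Fermat.Agent.S34.H789
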