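/-
Row S34 / cell A2 (helper789): the `p`-adic mid layer keeps unipotency.

The abstract Tate eigenmodule constructions of row S30 (`H649.exists_adicFrobModule_of_lattice`,
`H349.exists_adic_eigenmodule`) transfer every relation `σ² - T_i σ + c = 0` from `J[p^∞]` to the
eigenmodule `M` (with `T_i` replaced by its eigenvalue `a_i`).  Adding the operator `2 • id`
(eigenvalue `2`) to the family `T` gives the transfer of the relation `σ² - 2 σ + 1 = 0`,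
i.e. of unipotency `(σ - 1)² = 0`.

Main results
* `exists_adicFrobModule_of_lattice_unip` : the statement of PIECE `Tate` of the S30 skeleton with
  the additional conclusion `(σ - 1)² = 0 on J[p^∞] ⟹ (ρ σ - 1)² = 0`.
* `exists_adicEigenModuleU_of_lattice` : adapter to `H990.AdicEigenModule` + `EigenUnipAt`.
* `jZero_unip_of_a2Kummer` : the hypothesis on `J = JZero N` from the Kummer form of wall A2
  (`Fermat.Agent.A2.H129.A2Kummer N (p ^ n) σ` for all `n`).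
-/
import Fermat.Agent.S34.H789.S30U
import Fermat.Agent.S30.H649.TateAdapter
import Fermat.Agent.A2.H129.KummerJZero

set_option autoImplicit false

namespace Fermat.Agent.S34.H789

open TensorProduct IsLocalRing

/-- The absolute Galois group of `ℚ`. -/
abbrev GQ' : Type := AlgebraicClosure ℚ ≃ₐ[ℚ] AlgebraicClosure ℚ

section Abstract

/-- `(f - 1)² = 0` from the quadratic relation with `a = 2`, `c = 1`. -/
theorem sub_one_mul_self_eq_zero {𝒪 M : Type*} [CommRing 𝒪] [AddCommGroup M] [Module 𝒪 M]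
    (f : Module.End 𝒪 M)
    (h : f * f - (2 : 𝒪) • f + (((1 : ℤ) : 𝒪)) • (1 : Module.End 𝒪 M) = 0) :
    (f - 1) * (f - 1) = 0 := by
  rw [Int.cast_one, one_smul, two_smul] at h
  rw [← h]
  simp only [mul_sub, sub_mul, mul_one, one_mul]
  abel

/-- **PIECE `Tate` of the S30 skeleton, with unipotency transfer.**  Same hypotheses as
`Fermat.Agent.S30.H649.exists_adicFrobModule_of_lattice`; the additional last conclusion says that
`(ρ σ - 1)² = 0` as soon as `(σ - 1)² = 0` on the `p`-power torsion of `J`. -/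
theorem exists_adicFrobModule_of_lattice_unip
    {𝒪 : Type} [CommRing 𝒪] [IsDomain 𝒪] [IsDiscreteValuationRing 𝒪]
    [IsAdicComplete (IsLocalRing.maximalIdeal 𝒪) 𝒪] [Finite (IsLocalRing.ResidueField 𝒪)]
    [CharZero 𝒪] {p : ℕ} (hp : p.Prime) (hp𝒪 : (p : 𝒪) ∈ IsLocalRing.maximalIdeal 𝒪)
    {J : Type} [AddCommGroup J] [DistribMulAction GQ' J]
    {ι : Type} (T : ι → J →ₗ[ℤ] J)
    (hTG : ∀ (i : ι) (σ : GQ') (x : J), T i (σ • x) = σ • T i x)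
    (hfin : Finite {x : J // (p : ℤ) • x = 0})
    (hsmooth : ∀ x : J, (∃ n : ℕ, ((p : ℤ) ^ n) • x = 0) →
      ∃ L : IntermediateField ℚ (AlgebraicClosure ℚ), FiniteDimensional ℚ L ∧
        ∀ σ : GQ', (∀ y ∈ L, σ y = y) → σ • x = x)
    {Λ : Type} [AddCommGroup Λ] [Module.Free ℤ Λ] [Module.Finite ℤ Λ]
    (TΛ : ι → Λ →ₗ[ℤ] Λ) (κ : ℕ → Λ →ₗ[ℤ] J)
    (hκ0 : ∀ (n : ℕ) (x : Λ), κ n x = 0 ↔ ∃ y : Λ, x = ((p : ℤ) ^ n) • y)
    (hκs : ∀ (n : ℕ) (x : Λ), (p : ℤ) • κ (n + 1) x = κ n x)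
    (hκT : ∀ (i : ι) (n : ℕ) (x : Λ), κ n (TΛ i x) = T i (κ n x))
    (a : ι → 𝒪) (v : 𝒪 ⊗[ℤ] Λ) (hv : v ≠ 0)
    (hva : ∀ i : ι, (TΛ i).baseChange 𝒪 v = a i • v) :
    ∃ (M : Type) (_ : AddCommGroup M) (_ : Module 𝒪 M) (_ : Module.Free 𝒪 M)
      (_ : Module.Finite 𝒪 M) (ρ : GQ' →* Module.End 𝒪 M),
      Nontrivial M ∧ GaloisActionIsAdicContinuous 𝒪 ρ ∧
      (∀ σ : GQ', (∀ x : J, (∃ n : ℕ, ((p : ℤ) ^ n) • x = 0) → σ • x = x) → ρ σ = 1) ∧
      (∀ (σ : GQ') (i : ι) (c : ℤ),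
        (∀ x : J, (∃ n : ℕ, ((p : ℤ) ^ n) • x = 0) →
          σ • σ • x - T i (σ • x) + c • x = 0) →
        ρ σ * ρ σ - a i • ρ σ + (c : 𝒪) • (1 : Module.End 𝒪 M) = 0) ∧
      (∀ σ : GQ', (∀ x : J, (∃ n : ℕ, ((p : ℤ) ^ n) • x = 0) →
          σ • (σ • x - x) = σ • x - x) → (ρ σ - 1) * (ρ σ - 1) = 0) := by
  classical
  -- the extended families, indexed by `Option ι`
  let T' : Option ι → J →ₗ[ℤ] J := fun o => o.elim ((2 : ℤ) • LinearMap.id) T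
  let TΛ' : Option ι → Λ →ₗ[ℤ] Λ := fun o => o.elim ((2 : ℤ) • LinearMap.id) TΛ
  let a' : Option ι → 𝒪 := fun o => o.elim (2 : 𝒪) a
  have hTG' : ∀ (i : Option ι) (σ : GQ') (x : J), T' i (σ • x) = σ • T' i x := by
    intro i σ x
    cases i with
    | none =>
      show (2 : ℤ) • (σ • x) = σ • ((2 : ℤ) • x)
      rw [two_smul, two_smul, smul_add]
    | some i => exact hTG i σ x
  have hκT' : ∀ (i : Option ι) (n : ℕ) (x : Λ), κ n (TΛ' i x) = T' i (κ n x) := by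
    intro i n x
    cases i with
    | none =>
      show κ n ((2 : ℤ) • x) = (2 : ℤ) • κ n x
      rw [map_smul]
    | some i => exact hκT i n x
  have hva' : ∀ i : Option ι, (TΛ' i).baseChange 𝒪 v = a' i • v := by
    intro i
    cases i with
    | none =>
      show ((2 : ℤ) • (LinearMap.id : Λ →ₗ[ℤ] Λ)).baseChange 𝒪 v = (2 : 𝒪) • v
      rw [LinearMap.baseChange_smul, LinearMap.baseChange_id, LinearMap.smul_apply,
        LinearMap.id_apply, ← Fermat.Agent.S30.H649.intCast_smul_tensor]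
      norm_num
    | some i => exact hva i
  obtain ⟨M, i1, i2, i3, i4, ρ, hnt, hcont, hone, hquad⟩ :=
    Fermat.Agent.S30.H649.exists_adicFrobModule_of_lattice (𝒪 := 𝒪) hp hp𝒪 (J := J)
      (ι := Option ι) T' hTG' hfin hsmooth TΛ' κ hκ0 hκs hκT' a' v hv hva'
  refine ⟨M, i1, i2, i3, i4, ρ, hnt, hcont, hone, ?_, ?_⟩
  · intro σ i c h
    exact hquad σ (some i) c h
  · intro σ h
    have h1 := hquad σ none 1 (fun x hx => by
      have h2 := h x hx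
      show σ • σ • x - (2 : ℤ) • (σ • x) + (1 : ℤ) • x = 0
      rw [smul_sub] at h2
      rw [two_smul, one_smul]
      have h3 : σ • σ • x = σ • x - x + σ • x := by
        rw [← h2]; abel
      rw [h3]; abel)
    exact sub_one_mul_self_eq_zero (ρ σ) h1

end Abstract

section Adapter

open Fermat.Agent.S30.H990

/-- **Adapter**: from the lattice data of the S30 skeleton for a Galois module `J` with operators
`T_ℓ` at the good primes, the raw Eichler–Shimura statements on `J[p^∞]` (unramified outside `Np`,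
Frobenius relation) and unipotency of inertia at the primes `q ≠ p`, `q ∥ N` on `J[p^∞]`, to an
`AdicEigenModule` which is unipotent at these primes (the input `HasAdicEigenModulesU` of
`result_of_U_SS`). -/
theorem exists_adicEigenModuleU_of_lattice
    {𝒪 : Type} [CommRing 𝒪] [IsDomain 𝒪] [IsDiscreteValuationRing 𝒪]
    [IsAdicComplete (IsLocalRing.maximalIdeal 𝒪) 𝒪] [Finite (IsLocalRing.ResidueField 𝒪)]
    [CharZero 𝒪] {p : ℕ} (hp : p.Prime) (hp𝒪 : (p : 𝒪) ∈ IsLocalRing.maximalIdeal 𝒪)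
    {N : ℕ} [NeZero N] {S : Finset ℕ}
    (χ : CuspForm.heckeAlgebra N 2 (↑S : Set ℕ) →+* 𝒪)
    {J : Type} [AddCommGroup J] [DistribMulAction GQ' J]
    (T : {ℓ : Nat.Primes // ¬ (ℓ : ℕ) ∣ N ∧ (ℓ : ℕ) ∉ (↑S : Set ℕ)} → J →ₗ[ℤ] J)
    (hTG : ∀ i (σ : GQ') (x : J), T i (σ • x) = σ • T i x)
    (hfin : Finite {x : J // (p : ℤ) • x = 0})
    (hsmooth : ∀ x : J, (∃ n : ℕ, ((p : ℤ) ^ n) • x = 0) →
      ∃ L : IntermediateField ℚ (AlgebraicClosure ℚ), FiniteDimensional ℚ L ∧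
        ∀ σ : GQ', (∀ y ∈ L, σ y = y) → σ • x = x)
    {Λ : Type} [AddCommGroup Λ] [Module.Free ℤ Λ] [Module.Finite ℤ Λ]
    (TΛ : {ℓ : Nat.Primes // ¬ (ℓ : ℕ) ∣ N ∧ (ℓ : ℕ) ∉ (↑S : Set ℕ)} → Λ →ₗ[ℤ] Λ)
    (κ : ℕ → Λ →ₗ[ℤ] J)
    (hκ0 : ∀ (n : ℕ) (x : Λ), κ n x = 0 ↔ ∃ y : Λ, x = ((p : ℤ) ^ n) • y)
    (hκs : ∀ (n : ℕ) (x : Λ), (p : ℤ) • κ (n + 1) x = κ n x)
    (hκT : ∀ i (n : ℕ) (x : Λ), κ n (TΛ i x) = T i (κ n x))
    (v : 𝒪 ⊗[ℤ] Λ) (hv : v ≠ 0)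
    (hva : ∀ i, (TΛ i).baseChange 𝒪 v = χ (CuspForm.heckeAlgebra.T i.1.2 i.2.1 i.2.2) • v)
    (hunr : ∀ q : ℕ, q.Prime → ¬ q ∣ N → q ≠ p →
      ∀ P : ValuationSubring (AlgebraicClosure ℚ), P.LiesOverPrime q →
        ∀ σ ∈ P.inertiaSubgroupIn ℚ, ∀ x : J, (∃ n : ℕ, ((p : ℤ) ^ n) • x = 0) → σ • x = x)
    (hfrob : ∀ i : {ℓ : Nat.Primes // ¬ (ℓ : ℕ) ∣ N ∧ (ℓ : ℕ) ∉ (↑S : Set ℕ)},
      ∀ A : ValuationSubring (AlgebraicClosure ℚ), A.LiesOverPrime (i.1 : ℕ) →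
        ∀ σ : GQ', A.IsFrobeniusAt σ (i.1 : ℕ) →
          ∀ x : J, (∃ n : ℕ, ((p : ℤ) ^ n) • x = 0) →
            σ • σ • x - T i (σ • x) + (((i.1 : ℕ) : ℤ)) • x = 0)
    (hunip : ∀ q : ℕ, q.Prime → q ≠ p → q ∣ N → ¬ q ^ 2 ∣ N →
      ∀ P : ValuationSubring (AlgebraicClosure ℚ), P.LiesOverPrime q →
        ∀ σ ∈ P.inertiaSubgroupIn ℚ, ∀ x : J, (∃ n : ℕ, ((p : ℤ) ^ n) • x = 0) →
          σ • (σ • x - x) = σ • x - x) :
    ∃ E : AdicEigenModule p N S 𝒪 χ,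
      ∀ q : ℕ, q.Prime → q ≠ p → q ∣ N → ¬ q ^ 2 ∣ N → EigenUnipAt E q := by
  obtain ⟨M, i1, i2, i3, i4, ρ, hnt, hcont, hone, hquad, huni⟩ :=
    exists_adicFrobModule_of_lattice_unip (𝒪 := 𝒪) hp hp𝒪 (J := J) T hTG hfin hsmooth TΛ κ
      hκ0 hκs hκT (fun i => χ (CuspForm.heckeAlgebra.T i.1.2 i.2.1 i.2.2)) v hv hva
  refine ⟨{ M := M
            ρ := ρ
            cont := hcont
            unram := fun q hq hqN hqp P hP σ hσ =>
              hone σ fun x hx => hunr q hq hqN hqp P hP σ hσ x hx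
            frob := fun ℓ hℓ hℓN hℓS A hA σ hσ => by
              have h := hquad σ ⟨⟨ℓ, hℓ⟩, hℓN, hℓS⟩ ((ℓ : ℕ) : ℤ)
                (fun x hx => hfrob ⟨⟨ℓ, hℓ⟩, hℓN, hℓS⟩ A hA σ hσ x hx)
              simpa using h }, ?_⟩
  intro q hq hqp hqN hq2 P hP σ hσ
  exact huni σ fun x hx => hunip q hq hqp hqN hq2 P hP σ hσ x hx

end Adapter

section JZero

open ModularCurve

/-- **Wall A2 in Kummer form gives the unipotency hypothesis on `J₀(N)[p^∞]`.** -/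
theorem jZero_unip_of_a2Kummer (N p : ℕ) (hp : p ≠ 0) (σ : GQ')
    (h : ∀ n : ℕ, Fermat.Agent.A2.H129.A2Kummer N (p ^ n) σ)
    (x : JZero N) (hx : ∃ n : ℕ, ((p : ℤ) ^ n) • x = 0) :
    σ • (σ • x - x) = σ • x - x := by
  obtain ⟨n, hn⟩ := hx
  refine Fermat.Agent.A2.H129.unipotent_JZero_of_kummer N (p ^ n) (pow_ne_zero n hp) σ (h n) x ?_
  rw [← natCast_zsmul, Nat.cast_pow]
  exact hn

end JZero

end Fermat.Agent.S34.H789
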