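/-
Row S34 (helper789): the frozen statement S34, gated on the OPEN inputs only.

Everything which is already on main is discharged here:
* SS (reducedness of the anemic Hecke algebra, Petersson): `Fermat.Agent.S31.H838.ssStatement`;
* CHEB Tier 1, S22, PTS, the S30 top extraction, the S34 top glue, T0 (`A2.T0.H669`).

Remaining hypotheses of `result_of_tower_wall`:
* the six inputs of the S30 skeleton (FIN, SMOOTH, GEQ, UNR, ES, LAT), in unfolded form;
* `hwall` : the wall A2 in the form `KummerTarget N q m` of `A2/Spec.lean` (row-lead helper13),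
  UNFOLDED, for `q ‖ N`, `0 < m`, `q ∤ m`.
The final `Fermat/Agent/S34.lean` is `result_of_tower_wall` applied to the six S30 inputs and to
`Fermat.Agent.A2.kummerTarget_of_parts` (Skel T1) as soon as they are on main.
-/
import Fermat.Agent.S34.H789.Inputs
import Fermat.Agent.S31.H838.OfS30
import Fermat.Agent.A2.T0.H669.T0

set_option autoImplicit false

namespace Fermat.Agent.S34.H789

open TensorProduct ModularCurve AlgebraicCurve

/-- The wall A2 (Kummer form of `A2/Spec.lean`, unfolded) gives `A2KummerStatement`. -/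
theorem a2KummerStatement_of_kummerTarget
    (hwall : ∀ (N q m : ℕ), q.Prime → q ∣ N → ¬ q ^ 2 ∣ N → N ≠ 0 → 0 < m → ¬ q ∣ m →
      ∀ P : ValuationSubring (AlgebraicClosure ℚ), P.LiesOverPrime q →
        ∀ τ ∈ P.inertiaSubgroupIn ℚ, ∀ f : modularFunctionFieldBar N, f ≠ 0 →
          (∀ v : Place (AlgebraicClosure ℚ) (modularFunctionFieldBar N), (m : ℤ) ∣ v.ord f) →
          ∃ h : modularFunctionFieldBar N, h ≠ 0 ∧
            arithmeticRingAut (modularFunctionFieldFull N) τ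
                (arithmeticRingAut (modularFunctionFieldFull N) τ f) * f =
              h ^ m * (arithmeticRingAut (modularFunctionFieldFull N) τ f) ^ 2) :
    A2KummerStatement := by
  intro N p q hp hq hqp hqN hq2 P hP σ hσ n
  have hN : N ≠ 0 := by
    rintro rfl
    exact hq2 (dvd_zero _)
  have hqm : ¬ q ∣ p ^ n := by
    intro h
    exact hqp ((Nat.prime_dvd_prime_iff_eq hq hp).1 (hq.dvd_of_dvd_pow h))
  exact Fermat.Agent.A2.T0.H669.a2Kummer_of_kummerTarget N q (p ^ n)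
    (hwall N q (p ^ n) hq hqN hq2 hN (pow_pos hp.pos n) hqm) P hP σ hσ

/-- **The frozen statement S34** (binders as in the template) from the six inputs of the S30
skeleton and the wall A2; SS and all glue are discharged from main. -/
theorem result_of_tower_wall
    (hfin : ∀ (N p : ℕ) [NeZero N], p.Prime →
      Finite {x : ModularCurve.JZero N // (p : ℤ) • x = 0})
    (hsm : ∀ (N p : ℕ) [NeZero N], ∀ x : ModularCurve.JZero N,
      (∃ n : ℕ, ((p : ℤ) ^ n) • x = 0) →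
        ∃ L : IntermediateField ℚ (AlgebraicClosure ℚ), FiniteDimensional ℚ L ∧
          ∀ σ : GQ', (∀ y ∈ L, σ y = y) → σ • x = x)
    (hgeq : ∀ (N : ℕ) [NeZero N] (ℓ : Nat.Primes) (σ : GQ') (x : ModularCurve.JZero N),
      ModularCurve.heckeOperatorBar N ℓ (σ • x) = σ • ModularCurve.heckeOperatorBar N ℓ x)
    (hunr : ∀ (N p : ℕ) [NeZero N], ∀ q : ℕ, q.Prime → ¬ q ∣ N * p →
      ∀ A : ValuationSubring (AlgebraicClosure ℚ), A.LiesOverPrime q →
        ∀ σ ∈ A.inertiaSubgroupIn ℚ, ∀ x : ModularCurve.JZero N,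
          (∃ n : ℕ, ((p : ℤ) ^ n) • x = 0) → σ • x = x)
    (hes : ∀ (N p : ℕ) [NeZero N], ∀ (ℓ : ℕ) (hℓ : ℓ.Prime), ¬ ℓ ∣ N * p →
      ∀ A : ValuationSubring (AlgebraicClosure ℚ), A.LiesOverPrime ℓ →
        ∀ σ : GQ', A.IsFrobeniusAt σ ℓ → ∀ x : ModularCurve.JZero N,
          (∃ n : ℕ, ((p : ℤ) ^ n) • x = 0) →
            σ • σ • x - ModularCurve.heckeOperatorBar N ⟨ℓ, hℓ⟩ (σ • x) + (ℓ : ℤ) • x = 0)
    (hlat : ∀ (N p : ℕ) [NeZero N], p.Prime →
      ∃ (Λ : Type) (_ : AddCommGroup Λ) (_ : Module.Free ℤ Λ) (_ : Module.Finite ℤ Λ)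
        (TΛ : Nat.Primes → Λ →ₗ[ℤ] Λ) (κ : ℕ → Λ →ₗ[ℤ] ModularCurve.JZero N),
        (∀ (n : ℕ) (x : Λ), κ n x = 0 ↔ ∃ y : Λ, x = ((p : ℤ) ^ n) • y) ∧
        (∀ (n : ℕ) (x : Λ), (p : ℤ) • κ (n + 1) x = κ n x) ∧
        (∀ ℓ : Nat.Primes, ¬ (ℓ : ℕ) ∣ N * p → ∀ (n : ℕ) (x : Λ),
          κ n (TΛ ℓ x) = ModularCurve.heckeOperatorBar N ℓ (κ n x)) ∧
        (∀ (S : Set ℕ) (R : Type) [CommRing R] [IsDomain R] [CharZero R]
          (χ : CuspForm.heckeAlgebra N 2 S →+* R),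
          ∃ v : R ⊗[ℤ] Λ, v ≠ 0 ∧
            ∀ (ℓ : ℕ) (hℓ : ℓ.Prime) (hℓN : ¬ ℓ ∣ N) (hℓS : ℓ ∉ S),
              (TΛ ⟨ℓ, hℓ⟩).baseChange R v = χ (CuspForm.heckeAlgebra.T hℓ hℓN hℓS) • v))
    (hwall : ∀ (N q m : ℕ), q.Prime → q ∣ N → ¬ q ^ 2 ∣ N → N ≠ 0 → 0 < m → ¬ q ∣ m →
      ∀ P : ValuationSubring (AlgebraicClosure ℚ), P.LiesOverPrime q →
        ∀ τ ∈ P.inertiaSubgroupIn ℚ, ∀ f : modularFunctionFieldBar N, f ≠ 0 →
          (∀ v : Place (AlgebraicClosure ℚ) (modularFunctionFieldBar N), (m : ℤ) ∣ v.ord f) →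
          ∃ h : modularFunctionFieldBar N, h ≠ 0 ∧
            arithmeticRingAut (modularFunctionFieldFull N) τ
                (arithmeticRingAut (modularFunctionFieldFull N) τ f) * f =
              h ^ m * (arithmeticRingAut (modularFunctionFieldFull N) τ f) ^ 2)
    {𝒪 : Type} [CommRing 𝒪] [IsDomain 𝒪] [IsDiscreteValuationRing 𝒪]
    [IsAdicComplete (IsLocalRing.maximalIdeal 𝒪) 𝒪] [Finite (IsLocalRing.ResidueField 𝒪)]
    [CharZero 𝒪]
    {p : ℕ} (hp : p.Prime) (hp𝒪 : (p : 𝒪) ∈ IsLocalRing.maximalIdeal 𝒪)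
    {N : ℕ} [NeZero N] {S : Finset ℕ} (hpS : p ∈ S) (hNS : ∀ q : ℕ, q.Prime → q ∣ N → q ∈ S)
    {θ : CuspForm.heckeAlgebra N 2 (↑S : Set ℕ) →+* IsLocalRing.ResidueField 𝒪}
    {T : Type} [CommRing T] [IsLocalRing T] [IsNoetherianRing T]
    [IsAdicComplete (IsLocalRing.maximalIdeal T) T] [Algebra 𝒪 T] [IsLocalHom (algebraMap 𝒪 T)]
    [Module.Finite 𝒪 T] [Module.Free 𝒪 T]
    (H : CuspForm.HeckeGaloisRepDatum N (↑S : Set ℕ) 𝒪 θ T)
    (q : ℕ) (hq : q.Prime) (hqp : q ≠ p) (hqN : q ∣ N) (hq2 : ¬ q ^ 2 ∣ N) :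
    H.ρ.IsUnipotentOnInertiaAt q :=
  result_of_inputs hfin hsm hgeq hunr hes hlat (a2KummerStatement_of_kummerTarget hwall)
    Fermat.Agent.S31.H838.ssStatement hp hp𝒪 hpS hNS H q hq hqp hqN hq2

end Fermat.Agent.S34.H789
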