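/-
Row S34 (helper789): the frozen statement S34 from the WALL A2 ALONE.

Tower A is on main (S30 is landable: `S30.H330.S30_of_nodes` with the two S18 nodes
`S18.Mod.H216.node_mod`, `S18.H438.node_alg`).  Here the SAME chain of helper330 (adic module
layer `adicModule_of_torsion`) is run with one more operator `2 • id` (eigenvalue `2`), which
transfers the relation `(σ - 1)² = 0` from `J₀(N)[p^∞]` to the adic eigenmodule.  Hence

* `exists_adicEigenModuleU_of_inj` : (K') + (F) + (P) + (T) + (Sm) + (GH) + wall on `J₀(N)[p^∞]`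
    ⟹ an `AdicEigenModule` which is unipotent on inertia at the primes `q ≠ p`, `q ∥ N`;
* `hasAdicEigenModulesU_of_coreFamily` : the S18 hub + the wall ⟹ `HasAdicEigenModulesU`;
* `result_of_wall_nodes` : frozen S34 from the two S18 nodes and the wall `A2.Target`;
* `result_of_wall_parts_nodes` : the same with the wall replaced by the three interface
   statements `A2.AlgSSStatement`, `A2.IFStatement`, `A2.ModSSStatement`.

The versions with the two S18 nodes discharged are in `WallFinal.lean`.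
-/
import Fermat.Agent.S34.H789.GateParts
import Fermat.Agent.S30.H330.AdicGate

set_option autoImplicit false
set_option linter.overlappingInstances false

noncomputable section

namespace Fermat.Agent.S34.H789

open Fermat.Agent.S29 Fermat.Agent.S29.M4b ModularCurve Fermat.Agent.S30.H330
  Fermat.Agent.S30.H990 Fermat.Agent.S30.H450
open Fermat.Agent.S18 (Qb CoreStatement)

/-- The wall A2 on the `p`-power torsion of `J₀(N)`: the inertia groups at the primes `q ≠ p`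
exactly dividing `N` act unipotently. -/
def WallOn (N p : ℕ) : Prop :=
  ∀ q : ℕ, q.Prime → q ≠ p → q ∣ N → ¬ q ^ 2 ∣ N →
    ∀ P : ValuationSubring (AlgebraicClosure ℚ), P.LiesOverPrime q →
      ∀ σ ∈ P.inertiaSubgroupIn ℚ, ∀ x : JZero N, (∃ n : ℕ, p ^ n • x = 0) →
        σ • (σ • x) + x = 2 • (σ • x)

/-- `A2.Target` at all moduli `p ^ n` gives `WallOn`. -/
theorem wallOn_of_target {N p : ℕ} (hp : p.Prime)
    (h : ∀ (q m : ℕ), q.Prime → q ∣ N → ¬ q ^ 2 ∣ N → 0 < m → ¬ q ∣ m →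
      Fermat.Agent.A2.Target N q m) : WallOn N p := by
  intro q hq hqp hqN hq2 P hP σ hσ x hx
  obtain ⟨n, hn⟩ := hx
  have hqm : ¬ q ∣ p ^ n := fun hd =>
    hqp ((Nat.prime_dvd_prime_iff_eq hq hp).1 (hq.dvd_of_dvd_pow hd))
  exact h q (p ^ n) hq hqN hq2 (pow_pos hp.pos n) hqm P hP σ hσ x hn

/-- `(f - 1)² = 0` from the quadratic relation with `a = 2`, `n = 1`. -/
theorem sub_one_mul_self_eq_zero_nat {𝒪 M : Type*} [CommRing 𝒪] [AddCommGroup M] [Module 𝒪 M]
    (f : Module.End 𝒪 M)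
    (h : f * f - (2 : 𝒪) • f + (((1 : ℕ) : 𝒪)) • (1 : Module.End 𝒪 M) = 0) :
    (f - 1) * (f - 1) = 0 := by
  rw [Nat.cast_one, one_smul, two_smul] at h
  rw [← h]
  simp only [mul_sub, sub_mul, mul_one, one_mul]
  abel

/-- **The adic module layer of helper330 with unipotency transfer.** -/
theorem exists_adicEigenModuleU_of_inj {p : ℕ} [Fact p.Prime] {N : ℕ} [NeZero N] {S : Finset ℕ}
    (hpS : p ∈ S) (hNS : ∀ q : ℕ, q.Prime → q ∣ N → q ∈ S)
    {O : Type} [CommRing O] [IsDomain O] [IsDiscreteValuationRing O]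
    [IsAdicComplete (IsLocalRing.maximalIdeal O) O] [Finite (IsLocalRing.ResidueField O)]
    [CharZero O] (hpO : (p : O) ∈ IsLocalRing.maximalIdeal O)
    (χ : CuspForm.heckeAlgebra N 2 (↑S : Set ℕ) →+* O)
    (hK : KummerInjStatement N p) (hF : FinStatement N p) (hP : ParEigenStatement N S O χ)
    (hT : TorsionRelations N p) (hSm : SmoothStatement N) (hGH : GaloisHeckeStatement N)
    (hW : WallOn N p) :
    ∃ E : AdicEigenModule p N S O χ,
      ∀ q : ℕ, q.Prime → q ≠ p → q ∣ N → ¬ q ^ 2 ∣ N → EigenUnipAt E q := by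
  classical
  obtain ⟨f, hf0, hf, hfe⟩ := exists_eigenHom_of_inj hpS hNS hpO χ hK hP
  -- index set of Hecke operators, extended by the operator `2 • id`
  let t : Option {ℓ : Nat.Primes // (ℓ : ℕ) ∉ S} → JZero N →+ JZero N := fun o =>
    o.elim (AddMonoidHom.id (JZero N) + AddMonoidHom.id (JZero N))
      (fun i => (heckeOperatorBar N i.1).toAddMonoidHom)
  let a : Option {ℓ : Nat.Primes // (ℓ : ℕ) ∉ S} → O := fun o =>
    o.elim (2 : O) (fun i => eigenvalue χ (i.1 : ℕ))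
  have ht : ∀ i (σ : AlgebraicClosure ℚ ≃ₐ[ℚ] AlgebraicClosure ℚ) (x : JZero N),
      σ • t i x = t i (σ • x) := by
    intro i σ x
    cases i with
    | none =>
      show σ • (x + x) = σ • x + σ • x
      rw [smul_add]
    | some i => exact hGH σ i.1 x
  have hfe' : ∀ i x, t i (f x) = f (algebraMap O (FractionRing O) (a i) * x) := by
    intro i x
    cases i with
    | none =>
      show f x + f x = f (algebraMap O (FractionRing O) (2 : O) * x)
      rw [map_ofNat, two_mul, map_add]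
    | some i => exact hfe i.1 i.2 x
  obtain ⟨M, i1, i2, i3, i4, ρ, hnt, hcont, hunr, hquad⟩ :=
    adicModule_of_torsion (J := JZero N) (Fact.out : p.Prime) hpO (fun x => hSm x) hF t ht a f
      hf0 hf hfe'
  have hdvd : ∀ q : ℕ, q.Prime → ¬ q ∣ N → q ≠ p → ¬ q ∣ N * p := by
    intro q hq hqN hqp hdiv
    rcases (Nat.Prime.dvd_mul hq).1 hdiv with h1 | h1
    · exact hqN h1
    · exact hqp ((Nat.prime_dvd_prime_iff_eq hq (Fact.out : p.Prime)).1 h1)
  refine ⟨{ M := M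
            ρ := ρ
            cont := hcont
            unram := fun q hq hqN hqp P hP σ hσ =>
              hunr σ fun x hx => (hT q hq (hdvd q hq hqN hqp) P hP).1 σ hσ x hx
            frob := fun ℓ hℓ hℓN hℓS A hA σ hσ => by
              have hℓS' : ℓ ∉ S := fun hmem => hℓS (Finset.mem_coe.mpr hmem)
              have hℓp : ℓ ≠ p := fun h => hℓS' (h ▸ hpS)
              have h1 := hquad (some ⟨⟨ℓ, hℓ⟩, hℓS'⟩) ℓ σ
                fun x hx => (hT ℓ hℓ (hdvd ℓ hℓ hℓN hℓp) A hA).2 σ hσ x hx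
              have h2 : eigenvalue χ ℓ = χ (CuspForm.heckeAlgebra.T hℓ hℓN hℓS) := by
                unfold Fermat.Agent.S30.H330.eigenvalue
                rw [dif_pos ⟨hℓ, hℓN, hℓS⟩]
              have h3 : a (some ⟨⟨ℓ, hℓ⟩, hℓS'⟩) = eigenvalue χ ℓ := rfl
              rw [h3, h2] at h1
              exact h1 }, ?_⟩
  intro q hq hqp hqN hq2 P hP σ hσ
  have h1 := hquad none 1 σ (fun x hx => by
    have h2 := hW q hq hqp hqN hq2 P hP σ hσ x hx
    show σ • σ • x - (σ • x + σ • x) + 1 • x = 0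
    rw [one_smul, two_smul] at *
    rw [sub_add_eq_add_sub, h2, sub_self])
  exact sub_one_mul_self_eq_zero_nat (ρ σ) h1

/-- **`HasAdicEigenModulesU` from the `p`-primary inputs of the adic module layer and the wall.** -/
theorem hasAdicEigenModulesU_of_inj
    (hK : ∀ (N : ℕ) [NeZero N] (p : ℕ) [Fact p.Prime], KummerInjStatement N p)
    (hF : ∀ (N : ℕ) [NeZero N] (p : ℕ) [Fact p.Prime], FinStatement N p)
    (hT : ∀ (N : ℕ) [NeZero N] (p : ℕ) [Fact p.Prime], TorsionRelations N p)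
    (hW : ∀ (N : ℕ) [NeZero N] (p : ℕ) [Fact p.Prime], WallOn N p) :
    HasAdicEigenModulesU := by
  intro p _ N _ S hpS hNS 𝒪' _ _ _ _ _ _ hp𝒪' χ
  exact exists_adicEigenModuleU_of_inj hpS hNS hp𝒪' χ (hK N p) (hF N p)
    (parEigenStatement hNS χ) (hT N p) (Fermat.Agent.S30.H990.smoothStatement N)
    (Fermat.Agent.S30.H990.galoisHeckeStatement N) (hW N p)

/-- **`HasAdicEigenModulesU` from the S18 hub and the wall.** -/
theorem hasAdicEigenModulesU_of_coreFamily (hcore : Fermat.Agent.S29.H222.CoreFamily)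
    (hW : ∀ (N : ℕ) [NeZero N] (p : ℕ) [Fact p.Prime], WallOn N p) :
    HasAdicEigenModulesU :=
  hasAdicEigenModulesU_of_inj
    (fun N _ p hp =>
      haveI : NeZero p := ⟨hp.out.ne_zero⟩
      kummerInjStatement_of_k3fin N p (fun n =>
        haveI : NeZero (p ^ n) := ⟨pow_ne_zero n hp.out.ne_zero⟩
        Fermat.Agent.S29.H942.finStatement N (p ^ n)))
    (fun N _ p hp =>
      haveI : NeZero p := ⟨hp.out.ne_zero⟩
      Fermat.Agent.S30.H330.finStatement N p)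
    (fun N _ p _ => torsionRelations_of_coreFamily hcore N p)
    hW

/-- **The frozen statement S34 from the S18 hub and the wall on `J₀(N)[p^∞]`.** -/
theorem result_of_wallOn_coreFamily (hcore : Fermat.Agent.S29.H222.CoreFamily)
    (hW : ∀ (N : ℕ) [NeZero N] (p : ℕ) [Fact p.Prime], WallOn N p)
    {𝒪 : Type} [CommRing 𝒪] [IsDomain 𝒪] [IsDiscreteValuationRing 𝒪]
    [IsAdicComplete (IsLocalRing.maximalIdeal 𝒪) 𝒪] [Finite (IsLocalRing.ResidueField 𝒪)]
    [CharZero 𝒪]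
    {p : ℕ} (hp : p.Prime) (hp𝒪 : (p : 𝒪) ∈ IsLocalRing.maximalIdeal 𝒪)
    {N : ℕ} [NeZero N] {S : Finset ℕ} (hpS : p ∈ S) (hNS : ∀ q : ℕ, q.Prime → q ∣ N → q ∈ S)
    {θ : CuspForm.heckeAlgebra N 2 (↑S : Set ℕ) →+* IsLocalRing.ResidueField 𝒪}
    {T : Type} [CommRing T] [IsLocalRing T] [IsNoetherianRing T]
    [IsAdicComplete (IsLocalRing.maximalIdeal T) T] [Algebra 𝒪 T] [IsLocalHom (algebraMap 𝒪 T)]
    [Module.Finite 𝒪 T] [Module.Free 𝒪 T]
    (H : CuspForm.HeckeGaloisRepDatum N (↑S : Set ℕ) 𝒪 θ T)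
    (q : ℕ) (hq : q.Prime) (hqp : q ≠ p) (hqN : q ∣ N) (hq2 : ¬ q ^ 2 ∣ N) :
    H.ρ.IsUnipotentOnInertiaAt q :=
  result_of_U_SS (hasAdicEigenModulesU_of_coreFamily hcore hW)
    Fermat.Agent.S31.H838.ssStatement hp hp𝒪 hpS hNS H q hq hqp hqN hq2

/-- **The frozen statement S34 from the two S18 nodes and the wall `A2.Target`.** -/
theorem result_of_wall_nodes
    (node_mod : ∀ (M : ℕ) [NeZero M] {ℓ : ℕ} [Fact ℓ.Prime], ¬ ℓ ∣ M →
      ∀ A : ValuationSubring Qb, A.LiesOverPrime ℓ → Fermat.Agent.S18.Mod.GoodModelStatement M ℓ A)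
    (node_alg : ∀ M : ℕ, Fermat.Agent.S18.Mod.AlgStatement M)
    (hwall : ∀ (N q m : ℕ), q.Prime → q ∣ N → ¬ q ^ 2 ∣ N → N ≠ 0 → 0 < m → ¬ q ∣ m →
      Fermat.Agent.A2.Target N q m)
    {𝒪 : Type} [CommRing 𝒪] [IsDomain 𝒪] [IsDiscreteValuationRing 𝒪]
    [IsAdicComplete (IsLocalRing.maximalIdeal 𝒪) 𝒪] [Finite (IsLocalRing.ResidueField 𝒪)]
    [CharZero 𝒪]
    {p : ℕ} (hp : p.Prime) (hp𝒪 : (p : 𝒪) ∈ IsLocalRing.maximalIdeal 𝒪)
    {N : ℕ} [NeZero N] {S : Finset ℕ} (hpS : p ∈ S) (hNS : ∀ q : ℕ, q.Prime → q ∣ N → q ∈ S)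
    {θ : CuspForm.heckeAlgebra N 2 (↑S : Set ℕ) →+* IsLocalRing.ResidueField 𝒪}
    {T : Type} [CommRing T] [IsLocalRing T] [IsNoetherianRing T]
    [IsAdicComplete (IsLocalRing.maximalIdeal T) T] [Algebra 𝒪 T] [IsLocalHom (algebraMap 𝒪 T)]
    [Module.Finite 𝒪 T] [Module.Free 𝒪 T]
    (H : CuspForm.HeckeGaloisRepDatum N (↑S : Set ℕ) 𝒪 θ T)
    (q : ℕ) (hq : q.Prime) (hqp : q ≠ p) (hqN : q ∣ N) (hq2 : ¬ q ^ 2 ∣ N) :
    H.ρ.IsUnipotentOnInertiaAt q :=
  result_of_wallOn_coreFamily (Fermat.Agent.S18.H694.coreFamily_of_nodes node_mod node_alg)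
    (fun N' hN' p' hp' => wallOn_of_target hp'.out
      (fun q m hq hqN hq2 hm hqm => hwall N' q m hq hqN hq2 (NeZero.ne N') hm hqm))
    hp hp𝒪 hpS hNS H q hq hqp hqN hq2

/-- **The frozen statement S34 from the two S18 nodes and the three interface statements ALG, IF,
MOD of the wall A2.** -/
theorem result_of_wall_parts_nodes
    (node_mod : ∀ (M : ℕ) [NeZero M] {ℓ : ℕ} [Fact ℓ.Prime], ¬ ℓ ∣ M →
      ∀ A : ValuationSubring Qb, A.LiesOverPrime ℓ → Fermat.Agent.S18.Mod.GoodModelStatement M ℓ A)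
    (node_alg : ∀ M : ℕ, Fermat.Agent.S18.Mod.AlgStatement M)
    (hALG : Fermat.Agent.A2.AlgSSStatement)
    (hIF : Fermat.Agent.A2.IFStatement) (hMOD : Fermat.Agent.A2.ModSSStatement)
    {𝒪 : Type} [CommRing 𝒪] [IsDomain 𝒪] [IsDiscreteValuationRing 𝒪]
    [IsAdicComplete (IsLocalRing.maximalIdeal 𝒪) 𝒪] [Finite (IsLocalRing.ResidueField 𝒪)]
    [CharZero 𝒪]
    {p : ℕ} (hp : p.Prime) (hp𝒪 : (p : 𝒪) ∈ IsLocalRing.maximalIdeal 𝒪)
    {N : ℕ} [NeZero N] {S : Finset ℕ} (hpS : p ∈ S) (hNS : ∀ q : ℕ, q.Prime → q ∣ N → q ∈ S)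
    {θ : CuspForm.heckeAlgebra N 2 (↑S : Set ℕ) →+* IsLocalRing.ResidueField 𝒪}
    {T : Type} [CommRing T] [IsLocalRing T] [IsNoetherianRing T]
    [IsAdicComplete (IsLocalRing.maximalIdeal T) T] [Algebra 𝒪 T] [IsLocalHom (algebraMap 𝒪 T)]
    [Module.Finite 𝒪 T] [Module.Free 𝒪 T]
    (H : CuspForm.HeckeGaloisRepDatum N (↑S : Set ℕ) 𝒪 θ T)
    (q : ℕ) (hq : q.Prime) (hqp : q ≠ p) (hqN : q ∣ N) (hq2 : ¬ q ^ 2 ∣ N) :
    H.ρ.IsUnipotentOnInertiaAt q :=
  result_of_wall_nodes node_mod node_alg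
    (fun N q m hq hqN hq2 hN hm hqm =>
      target_of_parts789 hALG hIF hMOD N q m hq hqN hq2 hN hm hqm)
    hp hp𝒪 hpS hNS H q hq hqp hqN hq2

end Fermat.Agent.S34.H789
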