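/-
Row S34 (helper789): the frozen statement S34 from the WALL A2 ALONE, Tower A discharged.

`result_of_wall`  : frozen S34 (template binders) from
    `hwall : ∀ N q m, q prime → q ∣ N → ¬ q² ∣ N → N ≠ 0 → 0 < m → ¬ q ∣ m → A2.Target N q m`;
`result_of_parts` : frozen S34 from `A2.AlgSSStatement`, `A2.IFStatement`, `A2.ModSSStatement`.

The two S18 nodes are discharged by `S18.Mod.H216.node_mod` and `S18.H438.node_alg` (same as the
final chain of S30, `S30.H330.S30_of_nodes`).  The final `Fermat/Agent/S34.lean` is ONE application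
of `result_of_wall` (or `result_of_parts`).
-/
import Fermat.Agent.S34.H789.WallGate
import Fermat.Agent.S18.Mod.H216.NodeMod
import Fermat.Agent.S18.H438.NodeAlg

set_option autoImplicit false
set_option linter.overlappingInstances false

noncomputable section

namespace Fermat.Agent.S34.H789

/-- **The frozen statement S34 from the wall `A2.Target`.** -/
theorem result_of_wall
    (hwall : ∀ (N q m : ℕ), q.Prime → q ∣ N → ¬ q ^ 2 ∣ N → N ≠ 0 → 0 < m → ¬ q ∣ m →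
      Fermat.Agent.A2.Target N q m)
    {𝒪 : Type} [CommRing 𝒪] [IsDomain 𝒪] [IsDiscreteValuationRing 𝒪]
    [IsAdicComplete (IsLocalRing.maximalIdeal 𝒪) 𝒪] [Finite (IsLocalRing.ResidueField 𝒪)]
    [CharZero 𝒪]
    {p : ℕ} (hp : p.Prime) (hp𝒪 : (p : 𝒪) ∈ IsLocalRing.maximalIdeal 𝒪)
    {N : ℕ} [NeZero N] {S : Finset ℕ} (hpS : p ∈ S) (hNS : ∀ q : ℕ, q.Prime → q ∣ N → q ∈ S)
    {θ : CuspForm.heckeAlgebra N 2 (↑S : Set ℕ) →+* IsLocalRing.ResidueField 𝒪}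
    {T : Type} [CommRing T] [IsLocalRing T] [IsNoetherianRing T]
    [IsAdicComplete (IsLocalRing.maximalIdeal T) T] [Algebra 𝒪 T] [IsLocalHom (algebraMap 𝒪 T)]
    [Module.Finite 𝒪 T] [Module.Free 𝒪 T]
    (H : CuspForm.HeckeGaloisRepDatum N (↑S : Set ℕ) 𝒪 θ T)
    (q : ℕ) (hq : q.Prime) (hqp : q ≠ p) (hqN : q ∣ N) (hq2 : ¬ q ^ 2 ∣ N) :
    H.ρ.IsUnipotentOnInertiaAt q :=
  result_of_wall_nodes
    (fun M _ _ _ hℓM A hA => Fermat.Agent.S18.Mod.H216.node_mod M hℓM A hA)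
    (fun M => Fermat.Agent.S18.H438.node_alg M)
    hwall hp hp𝒪 hpS hNS H q hq hqp hqN hq2

/-- **The frozen statement S34 from the three interface statements ALG, IF, MOD of the wall.** -/
theorem result_of_parts
    (hALG : Fermat.Agent.A2.AlgSSStatement)
    (hIF : Fermat.Agent.A2.IFStatement) (hMOD : Fermat.Agent.A2.ModSSStatement)
    {𝒪 : Type} [CommRing 𝒪] [IsDomain 𝒪] [IsDiscreteValuationRing 𝒪]
    [IsAdicComplete (IsLocalRing.maximalIdeal 𝒪) 𝒪] [Finite (IsLocalRing.ResidueField 𝒪)]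
    [CharZero 𝒪]
    {p : ℕ} (hp : p.Prime) (hp𝒪 : (p : 𝒪) ∈ IsLocalRing.maximalIdeal 𝒪)
    {N : ℕ} [NeZero N] {S : Finset ℕ} (hpS : p ∈ S) (hNS : ∀ q : ℕ, q.Prime → q ∣ N → q ∈ S)
    {θ : CuspForm.heckeAlgebra N 2 (↑S : Set ℕ) →+* IsLocalRing.ResidueField 𝒪}
    {T : Type} [CommRing T] [IsLocalRing T] [IsNoetherianRing T]
    [IsAdicComplete (IsLocalRing.maximalIdeal T) T] [Algebra 𝒪 T] [IsLocalHom (algebraMap 𝒪 T)]
    [Module.Finite 𝒪 T] [Module.Free 𝒪 T]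
    (H : CuspForm.HeckeGaloisRepDatum N (↑S : Set ℕ) 𝒪 θ T)
    (q : ℕ) (hq : q.Prime) (hqp : q ≠ p) (hqN : q ∣ N) (hq2 : ¬ q ^ 2 ∣ N) :
    H.ρ.IsUnipotentOnInertiaAt q :=
  result_of_wall
    (fun N q m hq hqN hq2 hN hm hqm =>
      target_of_parts789 hALG hIF hMOD N q m hq hqN hq2 hN hm hqm)
    hp hp𝒪 hpS hNS H q hq hqp hqN hq2

end Fermat.Agent.S34.H789
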